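import Fermat.Agent.S15.Atl.Kum1
import Fermat.Agent.S15.Atl.Kum2
import Fermat.Agent.GS.Export

/-!
# S15-ATP (new, short version): the "toric part" `W` of `J₀(p)[ℓ^∞]` at a place `A` over `p`

`W` is generated by the classes `x ∈ J₀(p)[ℓ ^ r]` whose Kummer function `u` (`div u = ℓ ^ r D`, `x = [D]`) is,
at the auxiliary level `p * 2`, trivial at both components of the fibre at `A` (`GS.TrivAt` for `u` and
for `w_p u`).
-/

set_option autoImplicit false

noncomputable section

namespace Fermat.Agent.S15.ATP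

open Fermat.Agent.GR Fermat.Agent.GS Fermat.Agent.GT.EMB ModularCurve Fermat.Agent.S15.Atl

/-- `u` is trivial at both components of the fibre at `A` of the curve of level `p * 2`. -/
def Triv2 (p n : ℕ) [NeZero (p * 2)] (A : ValuationSubring Qb) (u : LaurentSeries Qb) : Prop :=
  ∃ hu : u ∈ FF Qb (p * 2), TrivAt (p * 2) n A u ∧
    TrivAt (p * 2) n A ((wQ Qb p 2 ⟨u, hu⟩ : FF Qb (p * 2)) : LaurentSeries Qb)

/-- the generators of `W`. -/
def W0 (p ℓ : ℕ) [NeZero p] [NeZero (p * 2)] (A : ValuationSubring Qb) : Set (JZero p) :=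
  {x | ∃ (r : ℕ) (u : LaurentSeries Qb), IsKumOf p (ℓ ^ r) x u ∧ Triv2 p (ℓ ^ r) A u}

/-- the toric part. -/
def W (p ℓ : ℕ) [NeZero p] [NeZero (p * 2)] (A : ValuationSubring Qb) : AddSubgroup (JZero p) :=
  AddSubgroup.closure (W0 p ℓ A)

end Fermat.Agent.S15.ATP
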