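import Fermat.Agent.S15.ATP.Top.Defs

/-!
# S15-ATP: `TrivAt` and `Triv2` are stable under the decomposition group
-/

set_option autoImplicit false

noncomputable section

namespace Fermat.Agent.S15.ATP

open Fermat.Agent.GR Fermat.Agent.GR.E Fermat.Agent.GS Fermat.Agent.GT.EMB ModularCurve
  Fermat.Agent.S15.Atl

variable {N n : ℕ} {A : ValuationSubring Qb}

/-- PROOF. `TrivAt` gives `a b z`; take `gal σ a`, `gal σ b`, `gal σ z`.  Membership in `FF`:
`GR.coeffMap_mem_FF`.  `IsPrim A (gal σ a)`, `IsInt A (gal σ b)`, `Cong A (gal σ a) (gal σ b)` for `σ` in the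
decomposition group: write `σ = (A.decompositionSubgroup ℚ).subtype τ`, `a = incl A f` (`isPrim_iff`),
`gal σ (incl A f) = incl A (coeffMap (actA A τ) f)` (`incl_coeffMap_actA`), and the reduction of
`coeffMap (actA A τ) f` is the image of `red A f` under the automorphism of the residue field induced by `τ`
(injective); see the proof of `GS.trivAt_gal_div` (GS/Export.lean) for the API. -/
theorem TrivAt.gal {σ : GQ} (hσ : σ ∈ A.decompositionSubgroup ℚ) {y : LaurentSeries Qb}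
    (h : TrivAt N n A y) : TrivAt N n A (gal σ y) := by
  obtain ⟨a, b, ha, hb, hpa, hib, hab, z, hz, hz0, hy⟩ := h
  obtain ⟨f, rfl, hf⟩ := (isPrim_iff A).mp hpa
  obtain ⟨g, rfl⟩ := (isInt_iff A).mp hib
  rw [cong_incl_iff] at hab
  set τ : A.decompositionSubgroup ℚ := ⟨σ, hσ⟩ with hτ
  have hi : ∀ x : LaurentSeries A, incl A (coeffMap (actA A τ) x) = GR.gal σ (incl A x) :=
    fun x => incl_coeffMap_actA A τ x
  have hc : ∀ (x : LaurentSeries A) (k : ℤ),
      (red A (coeffMap (actA A τ) x)).coeff k = τ • (red A x).coeff k := by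
    intro x k
    have h : IsLocalRing.residue A (τ • x.coeff k) = τ • IsLocalRing.residue A (x.coeff k) :=
      IsLocalRing.ResidueField.residue_smul _ τ (x.coeff k)
    exact h
  refine ⟨GR.gal σ (incl A f), GR.gal σ (incl A g), GR.coeffMap_mem_FF _ ha, GR.coeffMap_mem_FF _ hb,
    ?_, ?_, ?_, GR.gal σ z, GR.coeffMap_mem_FF _ hz, (map_ne_zero (GR.gal σ)).mpr hz0, ?_⟩
  · rw [← hi, isPrim_incl_iff]
    intro h0
    apply hf
    ext k
    have h1 := congrArg (fun s => s.coeff k) h0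
    simp only [hc, HahnSeries.coeff_zero] at h1
    rw [HahnSeries.coeff_zero]
    exact (smul_eq_zero_iff_eq τ).mp h1
  · rw [← hi]
    exact (isInt_iff A).mpr ⟨_, rfl⟩
  · rw [← hi, ← hi, cong_incl_iff]
    ext k
    rw [hc, hc, hab]
  · rw [← map_div₀, hy, map_mul, map_pow]

/-- PROOF. `TrivAt.gal` twice and `IsWQ.gal_comm` (GS/WQ.lean) with `isWQ_wQ`:
`w (mapFF σ u) = gal σ (w u)`, `mapFF σ ⟨u, hu⟩ = ⟨gal σ u, _⟩`. -/
theorem Triv2.gal {p : ℕ} [NeZero (p * 2)] (hp2 : p.Coprime 2) {σ : GQ}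
    (hσ : σ ∈ A.decompositionSubgroup ℚ) {u : LaurentSeries Qb} (h : Triv2 p n A u) :
    Triv2 p n A (gal σ u) := by
  obtain ⟨hu, h1, h2⟩ := h
  obtain ⟨ι⟩ := nonempty_Qbar_hom
  have hw := isWQ_wQ (K := Qb) ι hp2
  refine ⟨GR.coeffMap_mem_FF _ hu, TrivAt.gal hσ h1, ?_⟩
  have := hw.gal_comm hp2 σ ⟨u, hu⟩
  have h3 := TrivAt.gal hσ h2
  rw [← this] at h3
  exact h3

/-- PROOF. as in `GS.unip_of_nodalInertia` (GS/Export.lean): `trivAt_gal_div` for `f` and for `w f`,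
`w (gal σ f / f) = gal σ (w f) / w f` by `map_div₀` and `IsWQ.gal_comm`. -/
theorem triv2_gal_div {p : ℕ} [NeZero (p * 2)] (hp2 : p.Coprime 2) (hn : 0 < n) {σ : GQ}
    (hσ : σ ∈ A.inertiaSubgroupIn ℚ) {f : LaurentSeries Qb} (hf : f ∈ FF Qb (p * 2)) (h0 : f ≠ 0) :
    Triv2 p n A (gal σ f / f) := by
  obtain ⟨ι⟩ := nonempty_Qbar_hom
  have hw := isWQ_wQ (K := Qb) ι hp2
  set w := wQ Qb p 2
  let u' : FF Qb (p * 2) := ⟨f, hf⟩
  have hu'0 : u' ≠ 0 := fun h => h0 (congrArg Subtype.val h)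
  let y : FF Qb (p * 2) := mapFF (σ : Qb →+* Qb) (p * 2) u' / u'
  have hy : (y : LaurentSeries Qb) = gal σ f / f := rfl
  have hwy : ((w y : FF Qb (p * 2)) : LaurentSeries Qb) =
      gal σ (w u' : FF Qb (p * 2)) / (w u' : FF Qb (p * 2)) := by
    have : w y = w (mapFF (σ : Qb →+* Qb) (p * 2) u') / w u' := map_div₀ w _ _
    rw [this]
    show ((w (mapFF (σ : Qb →+* Qb) (p * 2) u') : FF Qb (p * 2)) : LaurentSeries Qb) /
      (w u' : FF Qb (p * 2)) = _
    rw [hw.gal_comm hp2 σ u']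
  have hwu0 : ((w u' : FF Qb (p * 2)) : LaurentSeries Qb) ≠ 0 := by
    intro h
    exact ((map_ne_zero w).mpr hu'0) (Subtype.ext h)
  refine ⟨y.2, trivAt_gal_div hn hσ hf h0, ?_⟩
  have h4 : TrivAt (p * 2) n A ((w y : FF Qb (p * 2)) : LaurentSeries Qb) := by
    rw [hwy]; exact trivAt_gal_div hn hσ (w u').2 hwu0
  exact h4

end Fermat.Agent.S15.ATP
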