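import Fermat.Agent.S15.ATP.Top.Kum
import Fermat.Agent.S15.ATP.Top.Triv
import Fermat.Agent.GS.Inst.Out
import Fermat.Agent.GS.Bridge.Out
import Fermat.Agent.GR.D.LevelChange

/-!
# S15-ATP: inertia acts trivially on `W`, and `φ² = p²` on `W`
-/

set_option autoImplicit false

noncomputable section

open AlgebraicCurve ModularCurve

namespace Fermat.Agent.S15.ATP

open Fermat.Agent.GR Fermat.Agent.GR.S Fermat.Agent.GS Fermat.Agent.GT.EMB Fermat.Agent.S15.Atl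

variable {p : ℕ} {A : ValuationSubring Qb}

theorem nodal (hp : p.Prime) (hp2 : p ≠ 2) (hA : A.LiesOverPrime p) {n : ℕ} (hn : 0 < n)
    (hpn : ¬ p ∣ n) : NodalInertia p 2 n A ∧ NodalFrob p 2 n A := by
  have h2 : ¬ p ∣ 2 := fun h => hp2 ((Nat.prime_dvd_prime_iff_eq hp Nat.prime_two).1 h)
  have haux : auxPrime p ∣ 2 := by
    unfold auxPrime
    rw [if_neg hp2]
  obtain ⟨H, hH⟩ := Inst.instOut A p 2 two_ne_zero hp h2 haux hA
  exact bridgeOut A p 2 n H two_ne_zero hp h2 hA hH hpn hn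

/-- PROOF. `h : IsKumOf p n x u`, `u ∈ FF Qb p ≤ FF Qb (p*2)`, `IsKummer (N := p*2) n u` by
`GR.D.LC.isKummer_mono` from `h.isKummer`.  `(nodal ..).1 (wQ Qb p 2) (isWQ_wQ ι hcop) ⟨u, _⟩ ..` gives
`KummerEquiv (p*2) n u (gal τ u)`; `GR.D.LC.kummerEquiv_descend p 2 n Nat.prime_two` brings it down to level `p`;
`IsKumOf.eq_of_kummerEquiv hn h (h.gal τ)`. -/
theorem smul_eq_of_triv2 [NeZero p] [NeZero (p * 2)] (hp : p.Prime) (hp2 : p ≠ 2)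
    (hA : A.LiesOverPrime p) {n : ℕ} (hn : 0 < n) (hpn : ¬ p ∣ n) {x : JZero p}
    {u : LaurentSeries Qb} (h : IsKumOf p n x u) (ht : Triv2 p n A u) {τ : GQ}
    (hτ : τ ∈ A.inertiaSubgroupIn ℚ) : τ • x = x := by
  obtain ⟨hu2, t1, t2⟩ := ht
  have h2 : ¬ p ∣ 2 := fun h => hp2 ((Nat.prime_dvd_prime_iff_eq hp Nat.prime_two).1 h)
  have h2' : ¬ 2 ∣ p := fun h => hp2 ((Nat.prime_dvd_prime_iff_eq Nat.prime_two hp).1 h).symm
  have hcop : p.Coprime 2 := (Nat.Prime.coprime_iff_not_dvd hp).2 h2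
  obtain ⟨ι⟩ := nonempty_Qbar_hom
  have hK := h.isKummer
  have hK2 : IsKummer (N := p * 2) n u := GR.D.LC.isKummer_mono (Dvd.intro 2 rfl) hK
  have key := (nodal hp hp2 hA hn hpn).1 (wQ Qb p 2) (isWQ_wQ ι hcop) ⟨u, hu2⟩ hK2 t1 t2 τ hτ
  have key' : KummerEquiv p n u (gal τ u) :=
    GR.D.LC.kummerEquiv_descend p 2 n Nat.prime_two h2' hK.mem (h.gal τ).isKummer.mem hK.ne_zero key
  exact (IsKumOf.eq_of_kummerEquiv hn h (h.gal τ) key').symm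

/-- PROOF. same with `(nodal ..).2`: `KummerEquiv (p*2) n (u ^ (p^2)) (gal (φ * φ) u)`;
`h.pow (p^2)`, `h.gal (φ * φ)`, `mul_smul`. -/
theorem frob_of_triv2 [NeZero p] [NeZero (p * 2)] (hp : p.Prime) (hp2 : p ≠ 2)
    (hA : A.LiesOverPrime p) {n : ℕ} (hn : 0 < n) (hpn : ¬ p ∣ n) {x : JZero p}
    {u : LaurentSeries Qb} (h : IsKumOf p n x u) (ht : Triv2 p n A u) {φ : GQ}
    (hφ : A.IsFrobeniusAt φ p) : φ • φ • x = (p ^ 2) • x := by
  obtain ⟨hu2, t1, t2⟩ := ht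
  have h2 : ¬ p ∣ 2 := fun h => hp2 ((Nat.prime_dvd_prime_iff_eq hp Nat.prime_two).1 h)
  have h2' : ¬ 2 ∣ p := fun h => hp2 ((Nat.prime_dvd_prime_iff_eq Nat.prime_two hp).1 h).symm
  have hcop : p.Coprime 2 := (Nat.Prime.coprime_iff_not_dvd hp).2 h2
  obtain ⟨ι⟩ := nonempty_Qbar_hom
  have hK := h.isKummer
  have hK2 : IsKummer (N := p * 2) n u := GR.D.LC.isKummer_mono (Dvd.intro 2 rfl) hK
  have key := (nodal hp hp2 hA hn hpn).2 (wQ Qb p 2) (isWQ_wQ ι hcop) ⟨u, hu2⟩ hK2 t1 t2 φ hφ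
  have key' : KummerEquiv p n (u ^ (p ^ 2)) (gal (φ * φ) u) :=
    GR.D.LC.kummerEquiv_descend p 2 n Nat.prime_two h2' (pow_mem hK.mem _)
      (h.gal (φ * φ)).isKummer.mem (pow_ne_zero _ hK.ne_zero) key
  have e := IsKumOf.eq_of_kummerEquiv hn (h.pow (p ^ 2)) (h.gal (φ * φ)) key'
  rw [← mul_smul]
  exact e.symm

end Fermat.Agent.S15.ATP
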