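import Fermat.Agent.S15.ATP.Top.Defs

/-!
# S15-ATP: more about Kummer functions of torsion classes
-/

set_option autoImplicit false

noncomputable section

open AlgebraicCurve ModularCurve Fermat.Agent.S17.FF

namespace Fermat.Agent.S15.Atl

open Fermat.Agent.GR Fermat.Agent.GR.S Fermat.Agent.GR.H Fermat.Agent.GR.I

local notation "𝔽" => modularFunctionFieldBar

variable {N : ℕ} [NeZero N] {n : ℕ} {x y : JZero N} {u v : LaurentSeries Qb}

/-- PROOF. `n • Pic0.mk D = Pic0.mk (n • D)`, and `n • D = divf u` is principal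
(`QuotientAddGroup.eq_zero_iff`, as in `exists_isKumOf` read backwards). -/
theorem IsKumOf.nsmul_eq_zero (h : IsKumOf N n x u) : n • x = 0 := by
  obtain ⟨hu, D, hu0, hD, rfl⟩ := h
  have h1 : n • Pic0.mk D = Pic0.mk (n • D) := rfl
  rw [h1]
  refine (QuotientAddGroup.eq_zero_iff _).mpr ?_
  show ((n • D : Divisor.degZero (K := Qb) (F := 𝔽 N)) : Divisor Qb (𝔽 N)) ∈
      Divisor.principal (K := Qb) (F := 𝔽 N)
  refine ⟨⟨u, hu⟩, fun h0 => hu0 (congrArg Subtype.val h0), fun v => ?_⟩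
  rw [AddSubgroup.coe_nsmul, ← hD, divf_apply]

/-- PROOF. `x = Pic0.mk D`, `σ • x = Pic0.mk (SemilinearAut.degZeroSMulHom (gq N σ) D)` (as in
`GR.S.smul_sub_mem_K1`, by `rfl`), `gal σ u = ((gq N σ • ⟨u, hu⟩ : 𝔽 N) : series)` (`coe_gq_smul`), and
`divf (s • f) = s • divf f` for a semilinear automorphism (used in `Atl/Gal2.lean`, `GR/S/K1.lean`). -/
theorem IsKumOf.gal (h : IsKumOf N n x u) (σ : GQ) : IsKumOf N n (σ • x) (gal σ u) := by
  obtain ⟨hu, D, hu0, hD, rfl⟩ := h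
  have h1 : σ • Pic0.mk D = Pic0.mk (SemilinearAut.degZeroSMulHom (gq N σ) D) := rfl
  have h2 : gal σ u = ((gq N σ • (⟨u, hu⟩ : 𝔽 N) : 𝔽 N) : LaurentSeries Qb) :=
    (coe_gq_smul N σ ⟨u, hu⟩).symm
  have hmem : gal σ u ∈ 𝔽 N := by
    rw [h2]
    exact Subtype.property _
  have h3 : (⟨gal σ u, hmem⟩ : 𝔽 N) = gq N σ • (⟨u, hu⟩ : 𝔽 N) := Subtype.ext h2
  refine ⟨hmem, SemilinearAut.degZeroSMulHom (gq N σ) D, ?_, ?_, h1.symm⟩
  · intro h0
    have h4 : gq N σ • (⟨u, hu⟩ : 𝔽 N) = 0 := by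
      rw [← h3]
      exact Subtype.ext h0
    rw [smul_eq_zero_iff_eq] at h4
    exact hu0 (congrArg Subtype.val h4)
  · rw [h3, ← Fermat.Agent.GR.S.smul_divf, hD, SemilinearAut.coe_degZeroSMulHom, smul_comm]

theorem IsKumOf.pow (h : IsKumOf N n x u) (k : ℕ) : IsKumOf N n (k • x) (u ^ k) := by
  induction k with
  | zero => rw [zero_nsmul, pow_zero]; exact isKumOf_zero
  | succ k ih => rw [succ_nsmul, pow_succ]; exact ih.mul h

theorem IsKumOf.div (h : IsKumOf N n x u) (h' : IsKumOf N n y v) : IsKumOf N n (x - y) (u / v) := by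
  rw [sub_eq_add_neg, div_eq_mul_inv]
  exact h.mul h'.inv

end Fermat.Agent.S15.Atl
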